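import Fermat.Agent.RED.TorsESAbs

/-!
# ML / AT-2 / N1 : quadratic coverings

A function field embedding `φ : F →ₐ[K] F'` of degree `2` in characteristic zero is Galois: there
is a unique non trivial involution `s` of `F'` over `φ F`; the norm is `z * s z`; the fixed field
is `φ F`; and every ring endomorphism of `F'` fixing `φ F` is `1` or `s`.
-/

set_option autoImplicit false
set_option linter.style.haveILetI false
set_option linter.unusedSectionVars false
noncomputable section

open AlgebraicCurve Fermat.Agent.RED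

namespace Fermat.Agent.ML.At2

theorem exists_quad_involution {K F F' : Type*} [Field K] [Field F] [Field F'] [Algebra K F]
    [Algebra K F'] [CharZero K] (φ : F →ₐ[K] F') (hdeg : finrankAlong K φ = 2) :
    ∃ s : F' ≃ₐ[K] F', s ≠ 1 ∧ s * s = 1 ∧ (∀ x, s (φ x) = φ x) ∧
      (∀ z, φ (TorsES.normAlong φ z) = z * s z) ∧ (∀ z, s z = z → ∃ x, φ x = z) ∧
      ∀ t : F' →+* F', (∀ x, t (φ x) = φ x) → (∀ z, t z = z) ∨ (∀ z, t z = s z) := by
  classical
  letI := algebraAlong φ
  haveI := isScalarTower_along φ
  haveI : CharZero F := charZero_of_injective_algebraMap (algebraMap K F).injective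
  haveI : Algebra.IsQuadraticExtension F F' := ⟨hdeg⟩
  haveI : FiniteDimensional F F' := inferInstance
  haveI : IsGalois F F' := inferInstance
  have hcard : Nat.card (F' ≃ₐ[F] F') = 2 := by
    rw [IsGalois.card_aut_eq_finrank]; exact hdeg
  have hcard' : Fintype.card (F' ≃ₐ[F] F') = 2 := by rw [← Nat.card_eq_fintype_card]; exact hcard
  haveI : Nontrivial (F' ≃ₐ[F] F') := Fintype.one_lt_card_iff_nontrivial.mp (by omega)
  obtain ⟨s0, hs0⟩ := exists_ne (1 : F' ≃ₐ[F] F')
  have huniv : ∀ t : F' ≃ₐ[F] F', t = 1 ∨ t = s0 := by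
    intro t
    by_contra hcon
    push Not at hcon
    have : 3 ≤ Fintype.card (F' ≃ₐ[F] F') := by
      have h3 : ({1, s0, t} : Finset (F' ≃ₐ[F] F')).card = 3 := by
        rw [Finset.card_eq_three]
        exact ⟨1, s0, t, hs0.symm, hcon.1.symm, hcon.2.symm, rfl⟩
      rw [← h3]
      exact Finset.card_le_univ _
    omega
  have huniv' : (Finset.univ : Finset (F' ≃ₐ[F] F')) = {1, s0} := by
    ext t
    simp only [Finset.mem_univ, Finset.mem_insert, Finset.mem_singleton, true_iff]
    exact huniv t
  have hss : s0 * s0 = 1 := by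
    rcases huniv (s0 * s0) with h | h
    · exact h
    · exact absurd (mul_eq_left.mp h) hs0
  refine ⟨s0.restrictScalars K, ?_, ?_, ?_, ?_, ?_, ?_⟩
  · intro h
    apply hs0
    ext z
    exact congrArg (fun f : F' ≃ₐ[K] F' => f z) h
  · ext z
    exact congrArg (fun f : F' ≃ₐ[F] F' => f z) hss
  · intro x
    exact s0.commutes x
  · intro z
    have h := Algebra.norm_eq_prod_automorphisms F z
    rw [huniv', Finset.prod_pair hs0.symm] at h
    exact h
  · intro z hz
    have hmem : z ∈ (⊥ : IntermediateField F F') := by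
      rw [IsGalois.mem_bot_iff_fixed]
      intro t
      rcases huniv t with rfl | rfl
      · rfl
      · exact hz
    obtain ⟨x, hx⟩ := IntermediateField.mem_bot.mp hmem
    exact ⟨x, hx⟩
  · intro t ht
    let t1 : F' →ₐ[F] F' := { t with commutes' := ht }
    let t2 : F' ≃ₐ[F] F' := AlgEquiv.ofBijective t1 (Algebra.IsAlgebraic.algHom_bijective t1)
    rcases huniv t2 with h | h
    · left
      intro z
      exact congrArg (fun f : F' ≃ₐ[F] F' => f z) h
    · right
      intro z
      exact congrArg (fun f : F' ≃ₐ[F] F' => f z) h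

end Fermat.Agent.ML.At2
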