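import Fermat.Agent.ML.At2.N1.DeckDefs
import Fermat.Agent.ML.At2.N1.Quad
import Fermat.Agent.S36.Kum.Level

/-!
# ML / AT-2 / (N1) : the deck transformations of `X₀(4M) → X₀(M)` (`τ ↦ 2τ`)

`s`, `t` : the deck involutions of `alp M`, `bet M : F_{2M} → F_{4M}`.  Both fix `gam M (F_M)`, they are distinct, they commute with
the arithmetic Galois action, and the group they generate (of order `6`) contains an element of order `3`.
-/

set_option autoImplicit false
set_option linter.unusedSectionVars false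
set_option linter.style.haveILetI false

noncomputable section

open AlgebraicCurve ModularCurve

namespace Fermat.Agent.ML.At2

open Fermat.Agent.S24 Fermat.Agent.GAL.HeckeInputs Fermat.Agent.GAL.HeckeComm Fermat.Agent.RIB
open Fermat.Agent.RED hiding Kb

open scoped Fermat.Agent.ML.At2.Gam

/-- two distinct involutions generating a group of order dividing `6` : there is an element of order `3`. -/
theorem exists_orderOf_three {G : Type*} [Group G] (s t : G) (hs : s ≠ 1) (ht : t ≠ 1)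
    (hst : s ≠ t) (hs2 : s * s = 1) (hcard : Nat.card (Subgroup.closure {s, t}) ∣ 6) :
    ∃ c ∈ Subgroup.closure {s, t}, orderOf c = 3 := by
  classical
  set H := Subgroup.closure {s, t} with hH
  have hsH : s ∈ H := Subgroup.subset_closure (by simp)
  have htH : t ∈ H := Subgroup.subset_closure (by simp)
  haveI : Finite H := Nat.finite_of_card_ne_zero (by
    intro h0; rw [h0] at hcard; omega)
  have h2 : 2 ∣ Nat.card H := by
    have ho : orderOf (⟨s, hsH⟩ : H) = 2 := by
      apply orderOf_eq_prime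
      · apply Subtype.ext
        simpa [pow_two] using hs2
      · intro h
        exact hs (congrArg Subtype.val h)
    rw [← ho]
    exact orderOf_dvd_natCard _
  have h3 : 3 ≤ Nat.card H := by
    haveI : Fintype H := Fintype.ofFinite H
    rw [Nat.card_eq_fintype_card]
    have hc : ({1, ⟨s, hsH⟩, ⟨t, htH⟩} : Finset H).card = 3 := by
      rw [Finset.card_eq_three]
      refine ⟨1, ⟨s, hsH⟩, ⟨t, htH⟩, ?_, ?_, ?_, rfl⟩
      · intro h; exact hs (congrArg Subtype.val h).symm
      · intro h; exact ht (congrArg Subtype.val h).symm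
      · intro h; exact hst (congrArg Subtype.val h)
    rw [← hc]
    exact Finset.card_le_univ _
  have h6 : Nat.card H = 6 := by
    have hle : Nat.card H ≤ 6 := Nat.le_of_dvd (by norm_num) hcard
    interval_cases h : Nat.card H <;> omega
  haveI : Fact (Nat.Prime 3) := ⟨by norm_num⟩
  obtain ⟨c, hc⟩ := exists_prime_orderOf_dvd_card' (G := H) 3 (by rw [h6]; norm_num)
  exact ⟨c, c.2, by rw [← hc, Subgroup.orderOf_coe]⟩

/-- the abstract statement: two quadratic subfields generating `F'`, both containing `F0` with `[F' : F0] = 6`. -/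
theorem exists_deck_abs {K F0 F1 F' : Type*} [Field K] [Field F0] [Field F1] [Field F']
    [Algebra K F0] [Algebra K F1] [Algebra K F'] [CharZero K] [Algebra F0 F']
    [FiniteDimensional F0 F'] (a b : F1 →ₐ[K] F') (a0 b0 : F0 → F1)
    (ha : ∀ x, algebraMap F0 F' x = a (a0 x)) (hb : ∀ x, algebraMap F0 F' x = b (b0 x))
    (hda : finrankAlong K a = 2) (hdb : finrankAlong K b = 2) (h6 : Module.finrank F0 F' = 6)
    (hgen : ∀ S : Subfield F', (∀ z, a z ∈ S) → (∀ z, b z ∈ S) → S = ⊤) :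
    ∃ s t c : F' ≃ₐ[F0] F', (∀ z, a (TorsES.normAlong a z) = z * s z) ∧
      (∀ z, b (TorsES.normAlong b z) = z * t z) ∧
      (∀ g : F' ≃+* F', (∀ x, ∃ y, g.symm (a x) = a y) → ∀ z, g (s z) = s (g z)) ∧
      (∀ g : F' ≃+* F', (∀ x, ∃ y, g.symm (b x) = b y) → ∀ z, g (t z) = t (g z)) ∧
      c ∈ Subgroup.closure {s, t} ∧ orderOf c = 3 := by
  obtain ⟨s0, hs1, hs2, hs3, hs4, hs5, hs6⟩ := exists_quad_involution a hda
  obtain ⟨t0, ht1, ht2, ht3, ht4, ht5, ht6⟩ := exists_quad_involution b hdb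
  let s : F' ≃ₐ[F0] F' := AlgEquiv.ofRingEquiv (f := s0.toRingEquiv) (fun x => by
    rw [ha x]; exact hs3 _)
  let t : F' ≃ₐ[F0] F' := AlgEquiv.ofRingEquiv (f := t0.toRingEquiv) (fun x => by
    rw [hb x]; exact ht3 _)
  have hs : ∀ z, s z = s0 z := fun _ => rfl
  have ht : ∀ z, t z = t0 z := fun _ => rfl
  have hsne : s ≠ 1 := by
    intro h
    apply hs1
    ext z
    exact congrArg (fun f : F' ≃ₐ[F0] F' => f z) h
  have htne : t ≠ 1 := by
    intro h
    apply ht1
    ext z
    exact congrArg (fun f : F' ≃ₐ[F0] F' => f z) h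
  have hss : s * s = 1 := by
    ext z
    exact congrArg (fun f : F' ≃ₐ[K] F' => f z) hs2
  have hst : s ≠ t := by
    intro h
    apply hs1
    have htop : a.fieldRange.toSubfield = ⊤ := by
      refine hgen _ (fun z => ⟨z, rfl⟩) fun z => ?_
      have h1 : s0 (b z) = b z := by
        rw [← hs, h, ht]; exact ht3 z
      obtain ⟨x, hx⟩ := hs5 _ h1
      exact ⟨x, hx⟩
    ext z
    have hz : z ∈ a.fieldRange.toSubfield := by rw [htop]; exact Subfield.mem_top z
    obtain ⟨x, rfl⟩ := hz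
    exact hs3 x
  have hcard : Nat.card (Subgroup.closure {s, t}) ∣ 6 := by
    rw [← h6, ← IntermediateField.finrank_fixedField_eq_card (Subgroup.closure {s, t}),
      ← Module.finrank_mul_finrank F0 (IntermediateField.fixedField (Subgroup.closure {s, t})) F']
    exact Dvd.intro_left _ rfl
  obtain ⟨c, hc, hc3⟩ := exists_orderOf_three s t hsne htne hst hss hcard
  have hcomm : ∀ (u : F1 →ₐ[K] F') (w : F' ≃ₐ[K] F'), w ≠ 1 → (∀ x, w (u x) = u x) →
      (∀ r : F' →+* F', (∀ x, r (u x) = u x) → (∀ z, r z = z) ∨ (∀ z, r z = w z)) →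
      ∀ g : F' ≃+* F', (∀ x, ∃ y, g.symm (u x) = u y) → ∀ z, g (w z) = w (g z) := by
    intro u w hw1 hw3 hw6 g hg z
    let r : F' →+* F' := (g : F' →+* F').comp ((w : F' →+* F').comp (g.symm : F' →+* F'))
    have hr : ∀ y, r y = g (w (g.symm y)) := fun _ => rfl
    rcases hw6 r (fun x => by
      obtain ⟨y, hy⟩ := hg x
      rw [hr, hy, hw3, ← hy, RingEquiv.apply_symm_apply]) with h | h
    · exfalso
      apply hw1
      ext y
      have := h (g y)
      rw [hr, RingEquiv.symm_apply_apply] at this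
      exact g.injective this
    · have := h (g z)
      rw [hr, RingEquiv.symm_apply_apply] at this
      exact this
  exact ⟨s, t, c, hs4, ht4, hcomm a s0 hs1 hs3 hs6, hcomm b t0 ht1 ht3 ht6, hc, hc3⟩

variable (M : ℕ) [NeZero M]

theorem finrankAlong_alp : finrankAlong Kb (alp M) = 2 :=
  finrankAlong_alpha_of_dvd (M * 2) 2 Nat.prime_two (Dvd.intro_left M rfl)

theorem finrankAlong_bet : finrankAlong Kb (bet M) = 2 := by
  rw [bet, S36.Kum.finrankAlong_beta_eq_alpha' (M * 2) 2 Nat.prime_two]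
  exact finrankAlong_alp M

theorem gam_eq_bet_comp : gam M = (bet M).comp (heckeAlphaBar Kb M 2) := by
  refine AlgHom.ext fun x => Subtype.ext ?_
  rw [gam, alp, bet, AlgHom.comp_apply, AlgHom.comp_apply, coe_heckeAlphaBar, coe_heckeBetaBar,
    coe_heckeBetaBar, coe_heckeAlphaBar]

theorem finrankAlong_gam (hM : ¬ 2 ∣ M) : finrankAlong Kb (gam M) = 6 := by
  rw [gam_eq_bet_comp, S36.Kum.finrankAlong_comp', finrankAlong_bet,
    finrankAlong_alpha_of_not_dvd M 2 Nat.prime_two hM]

/-- `F_{4M}` is generated by the ranges of `alp M` and `bet M`. -/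
theorem subfield_eq_top_alp_bet (S : Subfield (FN (M * 2 * 2))) (h1 : ∀ z, alp M z ∈ S)
    (h2 : ∀ z, bet M z ∈ S) : S = ⊤ := by
  refine square_gen M 2 2 S h1 fun y => ?_
  have : betaUp M 2 2 y = bet M y := by
    apply Subtype.ext
    rw [coe_betaUp, bet, coe_heckeBetaBar]
  rw [this]
  exact h2 y

/-- **(c) [DECK]** -/
theorem exists_deck (hM : ¬ 2 ∣ M) : ∃ s t c : FN (M * 2 * 2) ≃ₐ[FN M] FN (M * 2 * 2),
    (∀ z, alp M (TorsES.normAlong (alp M) z) = z * s z) ∧
    (∀ z, bet M (TorsES.normAlong (bet M) z) = z * t z) ∧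
    (∀ (σ : AlgebraicClosure ℚ ≃ₐ[ℚ] AlgebraicClosure ℚ) z,
      SS.gal (M * 2 * 2) σ • s z = s (SS.gal (M * 2 * 2) σ • z)) ∧
    (∀ (σ : AlgebraicClosure ℚ ≃ₐ[ℚ] AlgebraicClosure ℚ) z,
      SS.gal (M * 2 * 2) σ • t z = t (SS.gal (M * 2 * 2) σ • z)) ∧
    c ∈ Subgroup.closure {s, t} ∧ orderOf c = 3 := by
  obtain ⟨s, t, c, h1, h2, h3, h4, h5, h6⟩ := exists_deck_abs (alp M) (bet M)
    (heckeBetaBar Kb M 2) (heckeAlphaBar Kb M 2) (fun _ => rfl)
    (fun x => by rw [gam_algebraMap, gam_eq_bet_comp]; rfl) (finrankAlong_alp M)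
    (finrankAlong_bet M) (finrankAlong_gam M hM) (subfield_eq_top_alp_bet M)
  refine ⟨s, t, c, h1, h2, fun σ z => ?_, fun σ z => ?_, h5, h6⟩
  · refine h3 (SemilinearAut.toRingAut (SS.gal (M * 2 * 2) σ)) (fun x => ?_) z
    exact ⟨_, (isRat_alpha (M * 2) 2 σ).inv x⟩
  · refine h4 (SemilinearAut.toRingAut (SS.gal (M * 2 * 2) σ)) (fun x => ?_) z
    exact ⟨_, (isRat_beta (M * 2) 2 σ).inv x⟩

end Fermat.Agent.ML.At2
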