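import Fermat.Agent.ML.At2.N1.Fix
import Fermat.Agent.RIB.WeilJ

/-!
# ML / AT-2 / (N1) : cyclic quotients and the Weil pairing (generic part)

`K` algebraically closed of characteristic `0`, `F'/F0` a finite extension of function fields,
`H` a finite group of `F0`-automorphisms of `F'`, `Fb = F'^H`, `π : Fb → F'`.
On torsion classes: `π^* π_* = ∑_{h ∈ H} h^*`, `π_* π^* = #H`.
-/

set_option autoImplicit false
set_option linter.unusedSectionVars false
set_option linter.style.haveILetI false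
set_option synthInstance.maxHeartbeats 400000

noncomputable section

open AlgebraicCurve

namespace Fermat.Agent.ML.At2

open Fermat.Agent.S27 Fermat.Agent.S19 Fermat.Agent.RED Fermat.Agent.RIB Fermat.Agent.RIB.WA

section Gen

variable {K F F' : Type*} [Field K] [Field F] [Field F'] [Algebra K F] [Algebra K F']
  [IsAlgClosed K] [CharZero K] [IsFF K F] [IsFF K F']

/-- `φ^*` for an arbitrary embedding of function fields -/
def gPull (φ : F →ₐ[K] F') : Pic0 K F →+ Pic0 K F' :=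
  RED.pullPic0 φ (ff_isIntegral φ) (ff_fundamentalIdentityAlong φ _)

/-- `φ_*` for an arbitrary embedding of function fields -/
def gPush (φ : F →ₐ[K] F') : Pic0 K F' →+ Pic0 K F :=
  SS.pushPic0 φ (ff_isIntegral φ) (ff_finiteAlong φ) (ff_normFormulaAlong φ _)

theorem kum_gPull (φ : F →ₐ[K] F') {m : ℕ} {x : Pic0 K F} {f : F} (h : Kum m x f) :
    Kum m (gPull φ x) (φ f) := h.pull φ _ _

theorem kum_gPush (φ : F →ₐ[K] F') {m : ℕ} {x : Pic0 K F'} {z : F'} (h : Kum m x z) :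
    Kum m (gPush φ x) (TorsES.normAlong φ z) := h.push φ _ _ _

theorem weil_gPull_left (φ : F →ₐ[K] F') {m : ℕ} {x : Pic0 K F} {y : Pic0 K F'}
    (hx : m • x = 0) (hy : m • y = 0) : weil m (gPull φ x) y = weil m x (gPush φ y) :=
  weil_pullPic0_left _ _ _ _ _ hx hy

theorem gPush_gPull (φ : F →ₐ[K] F') {m : ℕ} (hm : m ≠ 0) {x : Pic0 K F} (hx : m • x = 0) :
    gPush φ (gPull φ x) = finrankAlong K φ • x := by
  obtain ⟨f, hf⟩ := exists_kum hx
  have h1 := kum_gPush φ (kum_gPull φ hf)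
  rw [normAlong_apply] at h1
  exact h1.eq hm (hf.nsmul _)

/-- `Kum (m n) x f → Kum m (n x) f`. -/
theorem Kum.of_mul {m n : ℕ} {x : Pic0 K F} {f : F} (h : Kum (m * n) x f) : Kum m (n • x) f := by
  obtain ⟨D, rfl, hD⟩ := h
  refine ⟨n • D, rfl, hD.1, fun P => ?_⟩
  rw [← hD.2 P]
  show (m : ℤ) * ((n • (D : Divisor K F)) P) = _
  rw [Finsupp.smul_apply]
  push_cast
  simp [mul_assoc]

/-- an `m`-th power is the Kummer function of the zero class. -/
theorem kum_zero_pow (m : ℕ) {u : F} (hu : u ≠ 0) : Kum m (0 : Pic0 K F) (u ^ m) := by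
  obtain ⟨B, hB, hB0⟩ := HasPrincipalDivisors.exists_divisor (K := K) u hu
  refine ⟨⟨B, hB0⟩, ?_, pow_ne_zero m hu, fun P => ?_⟩
  · rw [RED.TorsES.mk_eq_zero_iff]
    exact ⟨u, hu, hB⟩
  · show (m : ℤ) * B P = _
    rw [hB P, S24.Place.ord_pow]

theorem eq_zero_of_kum_pow {m : ℕ} (hm : m ≠ 0) {x : Pic0 K F} {u : F} (h : Kum m x (u ^ m)) :
    x = 0 := by
  have hu : u ≠ 0 := fun h0 => h.ne_zero (by rw [h0, zero_pow hm])
  exact h.eq hm (kum_zero_pow m hu)

/-- the Kummer function of the zero class is an `m`-th power. -/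
theorem exists_pow_of_kum_zero {m : ℕ} (hm : m ≠ 0) {f : F} (h : Kum m (0 : Pic0 K F) f) :
    ∃ u : F, u ≠ 0 ∧ f = u ^ m := by
  obtain ⟨D, hD0, hD⟩ := h
  rw [RED.TorsES.mk_eq_zero_iff] at hD0
  obtain ⟨b, hb0, hb⟩ := hD0
  obtain ⟨y, hy⟩ := IsFF.exists_param (K := K) (F := F)
  have hsep : RED.IsSepParam K y := RED.IsSepParam.of_charZero hy
  have hbm : b ^ m ≠ 0 := pow_ne_zero m hb0
  have hord : ∀ w : Place K F, w.ord (f * (b ^ m)⁻¹) = 0 := by
    intro w
    rw [w.ord_mul hD.1 (inv_ne_zero hbm), w.ord_inv, S24.Place.ord_pow, ← hD.2 w, hb w]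
    ring
  obtain ⟨a0, ha0⟩ := hsep.mem_range_of_forall_ord_nonneg (fun w => (hord w).ge)
  obtain ⟨c, hc⟩ := IsAlgClosed.exists_pow_nat_eq a0 (Nat.pos_of_ne_zero hm)
  have hc0 : c ≠ 0 := by
    rintro rfl
    rw [zero_pow hm] at hc
    rw [← hc, map_zero] at ha0
    exact mul_ne_zero hD.1 (inv_ne_zero hbm) ha0.symm
  refine ⟨algebraMap K F c * b, mul_ne_zero (by simpa using hc0) hb0, ?_⟩
  rw [mul_pow, ← map_pow, hc, ha0, mul_assoc, inv_mul_cancel₀ hbm, mul_one]

theorem kum_sum {ι : Type*} (s : Finset ι) {m : ℕ} (x : ι → Pic0 K F) (f : ι → F)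
    (h : ∀ i ∈ s, Kum m (x i) (f i)) : Kum m (∑ i ∈ s, x i) (∏ i ∈ s, f i) := by
  classical
  induction s using Finset.induction_on with
  | empty => simpa using Kum.zero
  | insert a s ha ih =>
    rw [Finset.sum_insert ha, Finset.prod_insert ha]
    exact (h a (Finset.mem_insert_self a s)).add (ih fun i hi => h i (Finset.mem_insert_of_mem hi))

/-- a root of unity of a function field is a constant. -/
theorem exists_const_of_pow_eq_one {n : ℕ} (hn : n ≠ 0) {x : F} (hx : x ^ n = 1) :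
    ∃ ζ : K, ζ ^ n = 1 ∧ x = algebraMap K F ζ := by
  have hint : IsIntegral K x :=
    ⟨Polynomial.X ^ n - 1, Polynomial.monic_X_pow_sub_C (1 : K) hn, by simp [hx]⟩
  have : Algebra.IsAlgebraic K (IntermediateField.adjoin K {x}) :=
    IntermediateField.isAlgebraic_adjoin_simple hint
  have hbot := IntermediateField.eq_bot_of_isAlgClosed_of_isAlgebraic
    (IntermediateField.adjoin K {x})
  have hmem : x ∈ (⊥ : IntermediateField K F) := by
    rw [← hbot]
    exact IntermediateField.mem_adjoin_simple_self K x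
  obtain ⟨ζ, h1⟩ := IntermediateField.mem_bot.1 hmem
  refine ⟨ζ, ?_, h1.symm⟩
  apply (algebraMap K F).injective
  rw [map_pow, h1, hx, map_one]

end Gen

section Fix

variable {K F0 F' : Type*} [Field K] [Field F0] [Field F'] [Algebra K F0] [Algebra K F']
  [Algebra F0 F'] [IsScalarTower K F0 F'] [FiniteDimensional F0 F']
  [IsAlgClosed K] [CharZero K] [IsFF K F0] [IsFF K F']

instance instIsFFFixedField (H : Subgroup (F' ≃ₐ[F0] F')) :
    IsFF K (IntermediateField.fixedField H) := isFF_fixedField H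

/-- an `F0`-automorphism of `F'` as a `K`-algebra endomorphism -/
def autK (K : Type*) [Field K] [Algebra K F0] [Algebra K F'] [IsScalarTower K F0 F']
    (h : F' ≃ₐ[F0] F') : F' →ₐ[K] F' := (h : F' →ₐ[F0] F').restrictScalars K

@[simp] theorem autK_apply (h : F' ≃ₐ[F0] F') (z : F') : autK K h z = h z := rfl

/-- `h^*` on `Pic0 F'` -/
def aPull (h : F' ≃ₐ[F0] F') : Pic0 K F' →+ Pic0 K F' := gPull (autK K h)

theorem kum_aPull (h : F' ≃ₐ[F0] F') {m : ℕ} {x : Pic0 K F'} {z : F'} (hx : Kum m x z) :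
    Kum m (aPull h x) (h z) := kum_gPull (autK K h) hx

theorem aPull_one {m : ℕ} (hm : m ≠ 0) {x : Pic0 K F'} (hx : m • x = 0) :
    aPull (1 : F' ≃ₐ[F0] F') x = x := by
  obtain ⟨z, hz⟩ := exists_kum hx
  exact (kum_aPull 1 hz).eq hm hz

theorem aPull_mul (g h : F' ≃ₐ[F0] F') {m : ℕ} (hm : m ≠ 0) {x : Pic0 K F'} (hx : m • x = 0) :
    aPull (g * h) x = aPull g (aPull h x) := by
  obtain ⟨z, hz⟩ := exists_kum hx
  exact (kum_aPull (g * h) hz).eq hm (kum_aPull g (kum_aPull h hz))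

/-- `π^* π_* = ∑_{h ∈ H} h^*` on torsion classes. -/
theorem gPull_gPush_piH (H : Subgroup (F' ≃ₐ[F0] F')) [Fintype H] {m : ℕ} (hm : m ≠ 0)
    {x : Pic0 K F'} (hx : m • x = 0) :
    gPull (piH K H) (gPush (piH K H) x) = ∑ h : H, aPull (h : F' ≃ₐ[F0] F') x := by
  obtain ⟨z, hz⟩ := exists_kum hx
  have h1 := kum_gPull (piH K H) (kum_gPush (piH K H) hz)
  rw [piH_normAlong] at h1
  exact h1.eq hm (kum_sum Finset.univ _ _ fun h _ => kum_aPull (h : F' ≃ₐ[F0] F') hz)

/-- `Good H w` : the norm to `F'^H` of a Kummer function of `w ∈ Pic0[9]` is a cube. -/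
def Good (H : Subgroup (F' ≃ₐ[F0] F')) (w : Pic0 K F') : Prop :=
  ∃ (z : F') (u : IntermediateField.fixedField H),
    Kum 9 w z ∧ TorsES.normAlong (piH K H) z = u ^ 3

theorem Good.push_eq_zero {H : Subgroup (F' ≃ₐ[F0] F')} {w : Pic0 K F'} (h : Good H w) :
    3 • gPush (piH K H) w = 0 := by
  obtain ⟨z, u, hz, hu⟩ := h
  have h1 : Kum (3 * 3) (gPush (piH K H) w) (TorsES.normAlong (piH K H) z) :=
    kum_gPush (piH K H) hz
  have h2 := Kum.of_mul h1
  rw [hu] at h2
  exact eq_zero_of_kum_pow (by norm_num) h2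

/-- **the Weil pairing dies**: `H` of order `3` acting trivially on `a, b ∈ Pic0[9]`, both `Good`. -/
theorem weil_eq_one_of_good (H : Subgroup (F' ≃ₐ[F0] F')) (hH : Nat.card H = 3)
    {a b : Pic0 K F'} (ha9 : 9 • a = 0) (hb9 : 9 • b = 0)
    (ha : ∀ h ∈ H, aPull h a = a) (hb : ∀ h ∈ H, aPull h b = b)
    (hga : Good H a) (hgb : Good H b) : weil 3 (3 • a) (3 • b) = 1 := by
  classical
  haveI : Finite H := Nat.finite_of_card_ne_zero (by rw [hH]; norm_num)
  letI : Fintype H := Fintype.ofFinite H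
  have key : ∀ {x : Pic0 K F'}, 9 • x = 0 → (∀ h ∈ H, aPull h x = x) →
      gPull (piH K H) (gPush (piH K H) x) = 3 • x := by
    intro x hx9 hx
    rw [gPull_gPush_piH H (by norm_num) hx9, Finset.sum_congr rfl fun (h : H) _ => hx (h : F' ≃ₐ[F0] F') h.2,
      Finset.sum_const, Finset.card_univ, ← Nat.card_eq_fintype_card, hH]
  have h3a := hga.push_eq_zero
  have h3b := hgb.push_eq_zero
  have h3b' : 3 • gPull (piH K H) (gPush (piH K H) b) = 0 := by
    rw [← map_nsmul, h3b, map_zero]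
  rw [← key ha9 ha, ← key hb9 hb, weil_gPull_left _ h3a h3b',
    gPush_gPull _ (by norm_num) h3b, finrankAlong_piH, hH, h3b]
  exact weil_zero_right h3a

end Fix

end Fermat.Agent.ML.At2
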