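import Fermat.Agent.RIB.Deg.Fun
import Fermat.Agent.SS.Mod.Compat

/-!
# ML / AT-2 / (N1) : the tower `X₀(4M) → X₀(2M) → X₀(M)` : definitions

`alp M, bet M : F_{2M} → F_{4M}` (`τ`, `2τ`; degree `2`), `gam M : F_M → F_{4M}` (`2τ`; degree `6`), and the
`F_M`-algebra structure on `F_{4M}` given by `gam M` (a scoped instance).
-/

set_option autoImplicit false
set_option linter.unusedSectionVars false

noncomputable section

open AlgebraicCurve ModularCurve

namespace Fermat.Agent.ML.At2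

open Fermat.Agent.S24 Fermat.Agent.GAL.HeckeInputs Fermat.Agent.GAL.HeckeComm Fermat.Agent.RIB

variable (M : ℕ) [NeZero M]

/-- `τ ↦ τ`, `X₀(4M) → X₀(2M)` -/
def alp : FN (M * 2) →ₐ[Kb] FN (M * 2 * 2) := heckeAlphaBar Kb (M * 2) 2

/-- `τ ↦ 2τ`, `X₀(4M) → X₀(2M)` -/
def bet : FN (M * 2) →ₐ[Kb] FN (M * 2 * 2) := heckeBetaBar Kb (M * 2) 2

/-- `τ ↦ 2τ`, `X₀(4M) → X₀(M)` -/
def gam : FN M →ₐ[Kb] FN (M * 2 * 2) := (alp M).comp (heckeBetaBar Kb M 2)

/-- `F_{4M}` as an algebra over `F_M` via `gam M`. -/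
@[reducible] def gamAlgebra : Algebra (FN M) (FN (M * 2 * 2)) := algebraAlong (gam M)

scoped[Fermat.Agent.ML.At2.Gam] attribute [instance] Fermat.Agent.ML.At2.gamAlgebra

open scoped Fermat.Agent.ML.At2.Gam

instance gam_isScalarTower : IsScalarTower Kb (FN M) (FN (M * 2 * 2)) :=
  isScalarTower_along (gam M)

instance gam_finiteDimensional : FiniteDimensional (FN M) (FN (M * 2 * 2)) :=
  finiteAlong_any (gam M)

theorem gam_algebraMap (x : FN M) : algebraMap (FN M) (FN (M * 2 * 2)) x = gam M x := rfl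

end Fermat.Agent.ML.At2
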