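import Fermat.Agent.RIB.WeilAdj
import Fermat.Agent.RIB.Deg.Kum

/-!
# ML / AT-2 / (N1) : the fixed field of a finite group of automorphisms of a function field

`F'` finite over `F0`, `H` a subgroup of `Aut(F'/F0)`, `piH K H : F'^H → F'` the inclusion.

* `isFF_fixedField` : `F'^H` is a function field;
* `piH_normAlong` : the norm along `piH` is the product of the conjugates;
* `finrankAlong_piH` : the degree is `#H`;
* `mem_range_piH_iff` : the range of `piH` is the set of `H`-invariant elements.
-/

set_option autoImplicit false
set_option linter.style.haveILetI false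
set_option linter.unusedSectionVars false

noncomputable section

open AlgebraicCurve Fermat.Agent.S27 Fermat.Agent.RED

namespace Fermat.Agent.ML.At2

variable {K F0 F' : Type*} [Field K] [Field F0] [Field F'] [Algebra K F0] [Algebra K F']
  [Algebra F0 F'] [IsScalarTower K F0 F'] [FiniteDimensional F0 F']

/-- the inclusion of the fixed field of `H`. -/
def piH (K : Type*) [Field K] [Algebra K F0] [Algebra K F'] [IsScalarTower K F0 F']
    (H : Subgroup (F' ≃ₐ[F0] F')) : IntermediateField.fixedField H →ₐ[K] F' :=
  (IntermediateField.fixedField H).val.restrictScalars K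

theorem piH_apply (H : Subgroup (F' ≃ₐ[F0] F')) (u : IntermediateField.fixedField H) :
    piH K H u = (u : F') := rfl

theorem isFF_fixedField [IsFF K F0] (H : Subgroup (F' ≃ₐ[F0] F')) :
    IsFF K (IntermediateField.fixedField H) := by
  obtain ⟨y, hy⟩ := IsFF.exists_param (K := K) (F := F0)
  exact ⟨⟨algebraMap F0 (IntermediateField.fixedField H) y,
    GAL.FFExt.isFiniteParam_algebraMap hy⟩⟩

theorem algebraAlong_piH (H : Subgroup (F' ≃ₐ[F0] F')) :
    algebraAlong (piH K H) = (inferInstance : Algebra (IntermediateField.fixedField H) F') :=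
  Algebra.algebra_ext _ _ fun _ => rfl

theorem piH_normAlong (H : Subgroup (F' ≃ₐ[F0] F')) [Fintype H] (z : F') :
    piH K H (TorsES.normAlong (piH K H) z) = ∏ h : H, (h : F' ≃ₐ[F0] F') z := by
  classical
  have h1 : TorsES.normAlong (piH K H) z = Algebra.norm (IntermediateField.fixedField H) z := by
    unfold TorsES.normAlong
    rw [algebraAlong_piH]
  rw [h1]
  haveI : IsGalois (IntermediateField.fixedField H) F' := IsGalois.of_fixed_field F' H
  have h2 := Algebra.norm_eq_prod_automorphisms (IntermediateField.fixedField H) z
  have h3 : piH K H (Algebra.norm (IntermediateField.fixedField H) z) =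
      algebraMap (IntermediateField.fixedField H) F'
        (Algebra.norm (IntermediateField.fixedField H) z) := rfl
  rw [h3, h2]
  let e : H ≃ (F' ≃ₐ[IntermediateField.fixedField H] F') :=
    ((MulEquiv.subgroupCongr (IntermediateField.fixingSubgroup_fixedField H)).symm.trans
      (IntermediateField.fixingSubgroupEquiv (IntermediateField.fixedField H))).toEquiv
  exact (Fintype.prod_equiv e _ _ fun h => rfl).symm

theorem finrankAlong_piH (H : Subgroup (F' ≃ₐ[F0] F')) :
    finrankAlong K (piH K H) = Nat.card H := by
  unfold finrankAlong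
  rw [algebraAlong_piH]
  exact IntermediateField.finrank_fixedField_eq_card H

theorem mem_range_piH_iff (H : Subgroup (F' ≃ₐ[F0] F')) (u : F') :
    (∃ u0, piH K H u0 = u) ↔ ∀ h ∈ H, h u = u := by
  constructor
  · rintro ⟨u0, rfl⟩ h hh
    exact u0.2 ⟨h, hh⟩
  · intro hu
    exact ⟨⟨u, fun h => hu h.1 h.2⟩, rfl⟩

end Fermat.Agent.ML.At2
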