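import Fermat.Agent.ML.At2.N1.Cyc

/-!
# ML / AT-2 / (N1) : the character `λ : Pic0(F')[9]^H → μ₃` (generic part)

`Lam H c w ζ` : `w` has a Kummer function `z` (exponent `9`) with `∏_{h ∈ H} h z = u³` and `c u = ζ u`.
`ζ = 1` means that the norm of `z` to `F'^H` is a cube (`Good H w`).
-/

set_option autoImplicit false
set_option linter.unusedSectionVars false
set_option linter.style.haveILetI false
set_option synthInstance.maxHeartbeats 400000

noncomputable section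

open AlgebraicCurve

namespace Fermat.Agent.ML.At2

open Fermat.Agent.S27 Fermat.Agent.S19 Fermat.Agent.RED Fermat.Agent.RIB Fermat.Agent.RIB.WA

variable {K F0 F' : Type*} [Field K] [Field F0] [Field F'] [Algebra K F0] [Algebra K F']
  [Algebra F0 F'] [IsScalarTower K F0 F'] [FiniteDimensional F0 F']

/-- `∏_{h ∈ H} h z` -/
def prodH (H : Subgroup (F' ≃ₐ[F0] F')) [Fintype H] (z : F') : F' :=
  ∏ h : H, (h : F' ≃ₐ[F0] F') z

section prodH

variable (H : Subgroup (F' ≃ₐ[F0] F')) [Fintype H]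

theorem prodH_mul (z z' : F') : prodH H (z * z') = prodH H z * prodH H z' := by
  simp only [prodH, map_mul, Finset.prod_mul_distrib]

theorem prodH_inv (z : F') : prodH H z⁻¹ = (prodH H z)⁻¹ := by
  simp only [prodH, map_inv₀, Finset.prod_inv_distrib]

theorem prodH_pow (z : F') (n : ℕ) : prodH H (z ^ n) = prodH H z ^ n := by
  simp only [prodH, map_pow, Finset.prod_pow]

theorem apply_prodH {g : F' ≃ₐ[F0] F'} (hg : g ∈ H) (z : F') : g (prodH H z) = prodH H z := by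
  rw [prodH, map_prod]
  exact Fintype.prod_equiv (Equiv.mulLeft (⟨g, hg⟩ : H)) _ _ fun h => rfl

end prodH

/-- `w` has a Kummer function `z` with `∏_{h ∈ H} h z = u³`, `c u = ζ u`. -/
def Lam (H : Subgroup (F' ≃ₐ[F0] F')) [Fintype H] (c : F' ≃ₐ[F0] F') (w : Pic0 K F') (ζ : K) :
    Prop :=
  ∃ z u : F', u ≠ 0 ∧ Kum 9 w z ∧ prodH H z = u ^ 3 ∧ c u = algebraMap K F' ζ * u

namespace Lam

variable {H : Subgroup (F' ≃ₐ[F0] F')} [Fintype H] {c : F' ≃ₐ[F0] F'} {w w' : Pic0 K F'}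
  {ζ ζ' : K}

theorem add (h : Lam H c w ζ) (h' : Lam H c w' ζ') : Lam H c (w + w') (ζ * ζ') := by
  obtain ⟨z, u, hu, hz, hp, hc⟩ := h
  obtain ⟨z', u', hu', hz', hp', hc'⟩ := h'
  refine ⟨z * z', u * u', mul_ne_zero hu hu', hz.add hz', ?_, ?_⟩
  · rw [prodH_mul, hp, hp', mul_pow]
  · rw [map_mul, hc, hc', map_mul]; ring

theorem neg (h : Lam H c w ζ) : Lam H c (-w) ζ⁻¹ := by
  obtain ⟨z, u, hu, hz, hp, hc⟩ := h
  refine ⟨z⁻¹, u⁻¹, inv_ne_zero hu, hz.neg, ?_, ?_⟩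
  · rw [prodH_inv, hp, inv_pow]
  · rw [map_inv₀, hc, map_inv₀, mul_inv]

theorem nsmul (h : Lam H c w ζ) (n : ℕ) : Lam H c (n • w) (ζ ^ n) := by
  obtain ⟨z, u, hu, hz, hp, hc⟩ := h
  refine ⟨z ^ n, u ^ n, pow_ne_zero n hu, hz.nsmul n, ?_, ?_⟩
  · rw [prodH_pow, hp, ← pow_mul, ← pow_mul, mul_comm]
  · rw [map_pow, hc, map_pow, mul_pow]

/-- transport by a semilinear automorphism commuting with `H` and `c`. -/
theorem map (h : Lam H c w ζ) (g : F' →+* F') (g₀ : K →+* K)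
    (hg₀ : ∀ a, g (algebraMap K F' a) = algebraMap K F' (g₀ a))
    (hH : ∀ h ∈ H, ∀ z, g (h z) = h (g z)) (hc' : ∀ z, g (c z) = c (g z))
    (hw : ∀ z, Kum 9 w z → Kum 9 w' (g z)) : Lam H c w' (g₀ ζ) := by
  obtain ⟨z, u, hu, hz, hp, hc⟩ := h
  refine ⟨g z, g u, (map_ne_zero g).2 hu, hw z hz, ?_, ?_⟩
  · rw [← map_pow, ← hp, prodH, prodH, map_prod]
    exact Finset.prod_congr rfl fun h _ => (hH h h.2 z).symm
  · rw [← hc', hc, map_mul, hg₀]

end Lam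

section AC

variable [IsAlgClosed K] [CharZero K] [IsFF K F0] [IsFF K F']

theorem exists_lam (H : Subgroup (F' ≃ₐ[F0] F')) [Fintype H] (hH : Nat.card H = 3)
    {c : F' ≃ₐ[F0] F'} (hc : c ∈ H) {w : Pic0 K F'} (hw9 : 9 • w = 0)
    (hw : ∀ h ∈ H, aPull h w = w) : ∃ ζ : K, ζ ^ 3 = 1 ∧ Lam H c w ζ := by
  obtain ⟨z, hz⟩ := exists_kum hw9
  have h1 : Kum (3 * 3) (∑ h : H, aPull (h : F' ≃ₐ[F0] F') w) (prodH H z) :=
    kum_sum Finset.univ _ _ fun h _ => kum_aPull (h : F' ≃ₐ[F0] F') hz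
  rw [Finset.sum_congr rfl fun (h : H) _ => hw (h : F' ≃ₐ[F0] F') h.2, Finset.sum_const,
    Finset.card_univ, ← Nat.card_eq_fintype_card, hH] at h1
  have h2 := Kum.of_mul h1
  rw [smul_smul, show 3 * 3 = 9 from rfl, hw9] at h2
  obtain ⟨u, hu, hu3⟩ := exists_pow_of_kum_zero (by norm_num) h2
  have h3 : (c u / u) ^ 3 = 1 := by
    rw [div_pow, ← map_pow, ← hu3, apply_prodH H hc, div_self]
    rw [hu3]; exact pow_ne_zero 3 hu
  obtain ⟨ζ, hζ, hζu⟩ := exists_const_of_pow_eq_one (K := K) (by norm_num) h3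
  refine ⟨ζ, hζ, z, u, hu, hz, hu3, ?_⟩
  rw [← hζu, div_mul_cancel₀ _ hu]

theorem Lam.good {c : F' ≃ₐ[F0] F'} [Fintype (Subgroup.zpowers c)] {w : Pic0 K F'}
    (h : Lam (Subgroup.zpowers c) c w (1 : K)) : Good (Subgroup.zpowers c) w := by
  obtain ⟨z, u, hu, hz, hp, hc⟩ := h
  rw [map_one, one_mul] at hc
  have hfix : ∀ h ∈ Subgroup.zpowers c, h u = u := by
    have hle : Subgroup.zpowers c ≤ MulAction.stabilizer (F' ≃ₐ[F0] F') u := by
      rw [Subgroup.zpowers_le]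
      exact hc
    exact fun h hh => hle hh
  obtain ⟨u0, hu0⟩ := (mem_range_piH_iff (K := K) (Subgroup.zpowers c) u).2 hfix
  refine ⟨z, u0, hz, ?_⟩
  apply (piH K (Subgroup.zpowers c)).toRingHom.injective
  show piH K (Subgroup.zpowers c) _ = piH K (Subgroup.zpowers c) _
  rw [piH_normAlong, map_pow, hu0, ← hp]
  rfl

end AC

end Fermat.Agent.ML.At2
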