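import Fermat.Agent.ML.At2.N1.Sub
import Fermat.Agent.ML.At2.N1.Deck
import Fermat.Agent.ML.Weil.Nondeg
import Fermat.Agent.ML.Ihara.Theta
import Fermat.Agent.RIB.Grow.Div

/-!
# ML / AT-2 / (N1) [SC → UNIP] : at `p = 3`, `θ` occurs at level `4M` ⟹ `θ` occurs at level `2M`

`M` odd.  If `thetaPart (2M) = 0` then the two deck involutions `s, t` of `X₀(4M) → X₀(2M)` act by `-1` on
`V = thetaPart (4M)`; an element `c` of order `3` of `⟨s, t⟩ = S₃` acts trivially; with `Fb = F^{⟨c⟩}`, `π : Fb → F`: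
`π^* π_* = 3` on `V`, `π_* π^* = 3`, and `3 π_* V[9] = 0` (the obstruction is a Galois equivariant map `V[9] → μ₃`,
which vanishes because `θ` is not Eisenstein).  So `e₃(3a, 3b) = e₃(π_* a, 3 π_* b) = 1` : the Weil pairing vanishes on
`V[3] = 3 V[9]`, which is an orthogonal direct summand of `J₀(4M)[3]`.  Hence `V = 0`.
-/

set_option autoImplicit false
set_option linter.unusedSectionVars false
set_option linter.style.haveILetI false
set_option synthInstance.maxHeartbeats 400000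

noncomputable section

open AlgebraicCurve ModularCurve

namespace Fermat.Agent.ML.At2

open Fermat.Agent.S24 Fermat.Agent.S27 Fermat.Agent.S19 Fermat.Agent.RED Fermat.Agent.RIB
  Fermat.Agent.RIB.WA Fermat.Agent.GAL Fermat.Agent.GAL.PC Fermat.Agent.GAL.HeckeInputs
open scoped Fermat.Agent.ML.At2.Gam

local notation "GQ" => (AlgebraicClosure ℚ ≃ₐ[ℚ] AlgebraicClosure ℚ)

theorem kum_gal {N : ℕ} [NeZero N] {m : ℕ} {x : JZero N} {f : FN N} (h : Kum m x f) (σ : GQ) :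
    Kum m (σ • x) (SS.gal N σ • f) := by
  obtain ⟨D, rfl, hD⟩ := h
  exact ⟨SemilinearAut.degZeroSMulHom (SS.gal N σ) D, rfl, hD.smul (SS.gal N σ)⟩

theorem eq_zero_of_two_three {G : Type*} [AddCommGroup G] {x : G} {n : ℕ} (h3 : 3 ^ n • x = 0)
    (h2 : 2 • x = 0) : x = 0 := by
  have h1 : addOrderOf x ∣ Nat.gcd 2 (3 ^ n) :=
    Nat.dvd_gcd (addOrderOf_dvd_of_nsmul_eq_zero h2) (addOrderOf_dvd_of_nsmul_eq_zero h3)
  have h4 : Nat.gcd 2 (3 ^ n) = 1 := Nat.Coprime.pow_right n (by norm_num)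
  rw [h4, Nat.dvd_one] at h1
  exact AddMonoid.addOrderOf_eq_one_iff.1 h1

variable (M : ℕ) [NeZero M]

/-- **(N1) [SC → UNIP]**. -/
theorem sc_unip (hM : ¬ 2 ∣ M) {S : Set ℕ} {θ : ℕ → ℤ}
    (hS : ∀ r : ℕ, r.Prime → r ∉ S → ¬ r ∣ M * 2 * 2 * 3)
    (l₀ : Nat.Primes) (hl₀ : (l₀ : ℕ) ∉ S)
    (hne : ¬ ((3 : ℕ) : ℤ) ∣ θ l₀ - (((l₀ : ℕ) : ℤ) + 1))
    (h2 : thetaPart (M * 2) 3 S θ = ⊥) : thetaPart (M * 2 * 2) 3 S θ = ⊥ := by
  classical
  obtain ⟨s, t, c, hs, ht, hsσ, htσ, hc, hc3⟩ := exists_deck M hM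
  set V : AddSubgroup (JZero (M * 2 * 2)) := thetaPart (M * 2 * 2) 3 S θ with hVdef
  have hVt : ∀ x ∈ V, ∃ m : ℕ, m ≠ 0 ∧ m • x = 0 := fun x hx => by
    obtain ⟨n, hn⟩ := hx.1
    exact ⟨3 ^ n, by positivity, hn⟩
  have hV2 : ∀ x ∈ V, 2 • x = 0 → x = 0 := fun x hx h => by
    obtain ⟨n, hn⟩ := hx.1
    exact eq_zero_of_two_three hn h
  -- the deck involutions act by `-1`
  have hs' : ∀ x ∈ V, aPull s x = -x := by
    intro x hx
    obtain ⟨m, hm, hmx⟩ := hVt x hx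
    obtain ⟨z, hz⟩ := exists_kum hmx
    have h1 := kum_gPull (alp M) (kum_gPush (alp M) hz)
    rw [hs z] at h1
    have h3 : gPush (alp M) x = 0 := by
      have h4 : SS.pushA (M * 2) 2 x ∈ thetaPart (M * 2) 3 S θ := pushA_mem_thetaPart hS hx
      rw [h2] at h4
      exact h4
    rw [h3, map_zero] at h1
    exact eq_neg_of_add_eq_zero_right ((hz.add (kum_aPull s hz)).eq hm h1)
  have ht' : ∀ x ∈ V, aPull t x = -x := by
    intro x hx
    obtain ⟨m, hm, hmx⟩ := hVt x hx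
    obtain ⟨z, hz⟩ := exists_kum hmx
    have h1 := kum_gPull (bet M) (kum_gPush (bet M) hz)
    rw [ht z] at h1
    have h3 : gPush (bet M) x = 0 := by
      have h4 : SS.pushB (M * 2) 2 x ∈ thetaPart (M * 2) 3 S θ := pushB_mem_thetaPart hS hx
      rw [h2] at h4
      exact h4
    rw [h3, map_zero] at h1
    exact eq_neg_of_add_eq_zero_right ((hz.add (kum_aPull t hz)).eq hm h1)
  have hclos : Subgroup.closure {s, t} ≤ signSub V hVt := by
    rw [Subgroup.closure_le]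
    rintro h (rfl | rfl)
    · exact fun x hx => Or.inr (hs' x hx)
    · exact fun x hx => Or.inr (ht' x hx)
  have hcfix : ∀ x ∈ V, aPull c x = x := fun x hx =>
    aPull_eq_self_of_sign V hVt hV2 (hclos hc) (by rw [← hc3]; exact pow_orderOf_eq_one c) hx
  set H : Subgroup (FN (M * 2 * 2) ≃ₐ[FN M] FN (M * 2 * 2)) := Subgroup.zpowers c with hH
  have hHfix : ∀ h ∈ H, ∀ x ∈ V, aPull h x = x := by
    have hle : H ≤ fixSub V hVt := by
      rw [hH, Subgroup.zpowers_le]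
      exact hcfix
    exact fun h hh => hle hh
  have hHcard : Nat.card H = 3 := by rw [hH, Nat.card_zpowers, hc3]
  haveI : Finite H := Nat.finite_of_card_ne_zero (by rw [hHcard]; norm_num)
  letI : Fintype H := Fintype.ofFinite H
  -- Galois commutes with `c` and `H`
  have hcomm : ∀ σ : GQ, Subgroup.closure {s, t} ≤
      commSub (SemilinearAut.toRingAut (SS.gal (M * 2 * 2) σ) : FN (M * 2 * 2) →+* FN (M * 2 * 2)) := by
    intro σ
    rw [Subgroup.closure_le]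
    rintro h (rfl | rfl)
    · exact fun z => hsσ σ z
    · exact fun z => htσ σ z
  -- a Frobenius at `l₀`
  obtain ⟨A, hA⟩ := Fermat.Agent.S54.exists_liesOverPrime l₀.2
  obtain ⟨φ, hφ⟩ := Fermat.Agent.S54.exists_isFrobeniusAt_of_liesOverPrime l₀.2 A hA
  have hl₀N : ¬ (l₀ : ℕ) ∣ M * 2 * 2 * 3 := hS l₀ l₀.2 hl₀
  have hl₀3 : ¬ (l₀ : ℕ) ∣ 3 := fun h => hl₀N (h.mul_left _)
  -- `T - (l₀ + 1)` is onto on `V[9]`
  have hsurj : ∀ w ∈ V, 9 • w = 0 → ∃ w' ∈ V, 9 • w' = 0 ∧ eis (M * 2 * 2) l₀ w' = w := by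
    let Z : AddSubgroup (JZero (M * 2 * 2)) := V ⊓ (nsmulAddMonoidHom 9).ker
    haveI : Finite Z := by
      haveI := finite_tor_JZero (M * 2 * 2) (p := 3) (by norm_num) 2
      refine Finite.of_injective (fun x : Z => (⟨x.1, ?_⟩ : tor (JZero (M * 2 * 2)) (3 ^ 2))) ?_
      · exact mem_tor.2 x.2.2
      · intro x y hxy
        exact Subtype.ext (congrArg (fun u : tor (JZero (M * 2 * 2)) (3 ^ 2) => u.1) hxy)
    let f : Z → Z := fun x => ⟨eis (M * 2 * 2) l₀ x.1, eis_mem_thetaPart l₀ x.2.1, by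
      show 9 • eis (M * 2 * 2) l₀ x.1 = 0
      rw [← map_nsmul, show 9 • x.1 = 0 from x.2.2, map_zero]⟩
    have hinj : Function.Injective f := by
      intro x y hxy
      have h1 : eis (M * 2 * 2) l₀ (x.1 - y.1) = 0 := by
        rw [map_sub, sub_eq_zero]
        exact congrArg Subtype.val hxy
      exact Subtype.ext (sub_eq_zero.1 (eq_zero_of_eis_eq_zero Nat.prime_three l₀ hl₀ hne
        (V.sub_mem x.2.1 y.2.1) h1))
    intro w hw hw9
    obtain ⟨w', hw'⟩ := Finite.surjective_of_injective hinj ⟨w, hw, hw9⟩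
    exact ⟨w'.1, w'.2.1, w'.2.2, congrArg Subtype.val hw'⟩
  -- every element of `V[9]` is `Good`
  have hgood : ∀ w ∈ V, 9 • w = 0 → Good H w := by
    intro w hw hw9
    obtain ⟨w', hw', hw'9, rfl⟩ := hsurj w hw hw9
    set y : JZero (M * 2 * 2) := w' - φ⁻¹ • w' with hy
    have hyV : y ∈ V := V.sub_mem hw' (smul_mem_thetaPart φ⁻¹ hw')
    have hy9 : 9 • y = 0 := by
      have h1 : 9 • (φ⁻¹ • w') = 0 := by
        rw [smul_comm, hw'9]
        exact smul_zero (A := JZero (M * 2 * 2)) φ⁻¹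
      rw [hy, nsmul_sub, hw'9, h1, sub_zero]
    have hE : eis (M * 2 * 2) l₀ w' = φ • y + -((l₀ : ℕ) • y) := by
      rw [eis_apply, SS.hecke_eq_frob' (SS.es_all (M * 2 * 2) 3).2 l₀ hl₀N hA hφ w' hw'.1, hy,
        smul_sub, smul_inv_smul, nsmul_sub, add_zsmul, one_zsmul, natCast_zsmul]
      abel
    obtain ⟨ζ, hζ3, hL⟩ := exists_lam H hHcard (Subgroup.mem_zpowers c) hy9
      (fun h hh => hHfix h hh y hyV)
    have hζ0 : ζ ≠ 0 := fun h => by rw [h] at hζ3; norm_num at hζ3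
    have hcc := hcomm φ hc
    have hHc : H ≤ commSub (SemilinearAut.toRingAut (SS.gal (M * 2 * 2) φ) :
        FN (M * 2 * 2) →+* FN (M * 2 * 2)) := by
      rw [hH, Subgroup.zpowers_le]
      exact hcc
    have hL1 : Lam H c (φ • y) ((φ : S24.Kb →+* S24.Kb) ζ) :=
      hL.map (SemilinearAut.toRingAut (SS.gal (M * 2 * 2) φ) : FN (M * 2 * 2) →+* FN (M * 2 * 2))
        (φ : S24.Kb →+* S24.Kb) (fun a => SemilinearAut.commutes (SS.gal (M * 2 * 2) φ) a)
        (fun h hh z => hHc hh z) (fun z => hcc z) (fun z hz => kum_gal hz φ)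
    have hL3 := hL1.add (hL.nsmul (l₀ : ℕ)).neg
    have hφζ : (φ : S24.Kb →+* S24.Kb) ζ = ζ ^ (l₀ : ℕ) :=
      Cheb.apply_rootOfUnity_of_isFrobeniusAt l₀.2 hA hl₀3 hφ hζ3
    rw [hφζ, mul_inv_cancel₀ (pow_ne_zero _ hζ0), ← hE] at hL3
    exact hL3.good
  -- the Weil pairing vanishes on `V[3]`
  have h3 : ∀ x ∈ V, 3 • x = 0 → x = 0 := by
    intro x hx hx3
    refine Weil.weil_nondeg_theta_left (p := 3) Nat.prime_three 1 hS hx (by rwa [pow_one]) ?_
    intro a ha ha3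
    rw [pow_one] at ha3 ⊢
    obtain ⟨x', hx', rfl⟩ := thetaPart_divisible (M * 2 * 2) (p := 3) (by norm_num) S θ x hx
    obtain ⟨a', ha', rfl⟩ := thetaPart_divisible (M * 2 * 2) (p := 3) (by norm_num) S θ a ha
    have hx9 : 9 • x' = 0 := by rw [show 9 = 3 * 3 from rfl, mul_smul, hx3]
    have ha9 : 9 • a' = 0 := by rw [show 9 = 3 * 3 from rfl, mul_smul, ha3]
    exact weil_eq_one_of_good H hHcard hx9 ha9 (fun h hh => hHfix h hh x' hx')
      (fun h hh => hHfix h hh a' ha') (hgood x' hx' hx9) (hgood a' ha' ha9)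
  rw [eq_bot_iff]
  intro x hx
  obtain ⟨n, hn⟩ := hx.1
  have key : ∀ (n : ℕ), ∀ x ∈ V, 3 ^ n • x = 0 → x = 0 := by
    intro n
    induction n with
    | zero => intro x _ h; simpa using h
    | succ n ih =>
      intro x hx h
      refine ih x hx (h3 _ (V.nsmul_mem hx _) ?_)
      rw [smul_smul, ← pow_succ']
      exact h
  exact key n x hx hn

end Fermat.Agent.ML.At2
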