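import Fermat.Agent.ML.At2.N1.Lam

/-!
# ML / AT-2 / (N1) : subgroups of automorphisms acting by `±1`, trivially, or commuting with a ring map
-/

set_option autoImplicit false
set_option linter.unusedSectionVars false
set_option linter.style.haveILetI false
set_option synthInstance.maxHeartbeats 400000

noncomputable section

open AlgebraicCurve

namespace Fermat.Agent.ML.At2

open Fermat.Agent.S27 Fermat.Agent.S19 Fermat.Agent.RED Fermat.Agent.RIB Fermat.Agent.RIB.WA

variable {K F0 F' : Type*} [Field K] [Field F0] [Field F'] [Algebra K F0] [Algebra K F']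
  [Algebra F0 F'] [IsScalarTower K F0 F'] [FiniteDimensional F0 F']

/-- the automorphisms commuting with a ring endomorphism `g` of `F'` -/
def commSub (g : F' →+* F') : Subgroup (F' ≃ₐ[F0] F') where
  carrier := {h | ∀ z, g (h z) = h (g z)}
  one_mem' := fun _ => rfl
  mul_mem' := by
    intro a b ha hb z
    show g (a (b z)) = a (b (g z))
    rw [ha, hb]
  inv_mem' := by
    intro a ha z
    apply a.injective
    rw [← ha]
    show g (a (a.symm z)) = a (a.symm (g z))
    rw [a.apply_symm_apply, a.apply_symm_apply]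

theorem mem_commSub {g : F' →+* F'} {h : F' ≃ₐ[F0] F'} :
    h ∈ commSub g ↔ ∀ z, g (h z) = h (g z) := Iff.rfl

variable [IsAlgClosed K] [CharZero K] [IsFF K F0] [IsFF K F']

/-- the automorphisms acting by `±1` on each element of `V` -/
def signSub (V : AddSubgroup (Pic0 K F')) (hV : ∀ x ∈ V, ∃ m : ℕ, m ≠ 0 ∧ m • x = 0) :
    Subgroup (F' ≃ₐ[F0] F') where
  carrier := {h | ∀ x ∈ V, aPull h x = x ∨ aPull h x = -x}
  one_mem' := by
    intro x hx
    obtain ⟨m, hm, hmx⟩ := hV x hx
    exact Or.inl (aPull_one hm hmx)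
  mul_mem' := by
    intro a b ha hb x hx
    obtain ⟨m, hm, hmx⟩ := hV x hx
    show aPull (a * b) x = x ∨ aPull (a * b) x = -x
    rw [aPull_mul a b hm hmx]
    rcases hb x hx with h | h <;> rcases ha x hx with h' | h'
    · left; rw [h, h']
    · right; rw [h, h']
    · right; rw [h, map_neg, h']
    · left; rw [h, map_neg, h', neg_neg]
  inv_mem' := by
    intro a ha x hx
    obtain ⟨m, hm, hmx⟩ := hV x hx
    have h1 : aPull a⁻¹ (aPull a x) = x := by
      rw [← aPull_mul a⁻¹ a hm hmx, inv_mul_cancel, aPull_one hm hmx]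
    show aPull a⁻¹ x = x ∨ aPull a⁻¹ x = -x
    rcases ha x hx with h | h
    · left; rwa [h] at h1
    · right
      rw [h, map_neg] at h1
      exact neg_eq_iff_eq_neg.1 h1

/-- the automorphisms acting trivially on `V` -/
def fixSub (V : AddSubgroup (Pic0 K F')) (hV : ∀ x ∈ V, ∃ m : ℕ, m ≠ 0 ∧ m • x = 0) :
    Subgroup (F' ≃ₐ[F0] F') where
  carrier := {h | ∀ x ∈ V, aPull h x = x}
  one_mem' := by
    intro x hx
    obtain ⟨m, hm, hmx⟩ := hV x hx
    exact aPull_one hm hmx
  mul_mem' := by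
    intro a b ha hb x hx
    obtain ⟨m, hm, hmx⟩ := hV x hx
    show aPull (a * b) x = x
    rw [aPull_mul a b hm hmx, hb x hx, ha x hx]
  inv_mem' := by
    intro a ha x hx
    obtain ⟨m, hm, hmx⟩ := hV x hx
    have h1 : aPull a⁻¹ (aPull a x) = x := by
      rw [← aPull_mul a⁻¹ a hm hmx, inv_mul_cancel, aPull_one hm hmx]
    show aPull a⁻¹ x = x
    rwa [ha x hx] at h1

/-- an element of odd order `3` acting by `±1` on a group without `2`-torsion acts trivially. -/
theorem aPull_eq_self_of_sign (V : AddSubgroup (Pic0 K F'))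
    (hV : ∀ x ∈ V, ∃ m : ℕ, m ≠ 0 ∧ m • x = 0) (h2 : ∀ x ∈ V, 2 • x = 0 → x = 0)
    {c : F' ≃ₐ[F0] F'} (hc : c ∈ signSub V hV) (hc3 : c ^ 3 = 1) {x : Pic0 K F'} (hx : x ∈ V) :
    aPull c x = x := by
  obtain ⟨m, hm, hmx⟩ := hV x hx
  rcases hc x hx with h | h
  · exact h
  · have h1 : aPull (c ^ 3) x = -x := by
      have hmx' : m • aPull c x = 0 := by rw [← map_nsmul, hmx, map_zero]
      rw [pow_succ, pow_two, aPull_mul _ _ hm hmx, aPull_mul _ _ hm hmx', h, map_neg, h, neg_neg,
        h]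
    rw [hc3, aPull_one hm hmx] at h1
    have h3 : x = 0 := h2 x hx (by rw [two_nsmul]; nth_rewrite 1 [h1]; exact neg_add_cancel x)
    rw [h3, map_zero]

end Fermat.Agent.ML.At2
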